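import Fermat.Agent.Specht.Module
import Fermat.Agent.CharacterTheory.Irreducible
import Fermat.Agent.Root.SummarySchensted

/-!
# The irreducible representations of the symmetric groups

The Specht modules are pairwise different, each at least as large as the number of standard
tableaux; the two sums of squares, both `n!`, make them all irreducible representations with
exactly that dimension.
-/

set_option autoImplicit false

noncomputable section

namespace FA.Specht

open Finset
open scoped Classical
open FA.YoungHook.Summary (StandardTableau)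

variable {n : ℕ}

/-- Irreducible representations with equal characters are equivalent. -/
lemma nonempty_equiv_of_char_eq {G V W : Type*} [Group G] [Fintype G] [AddCommGroup V] [Module ℂ V]
    [FiniteDimensional ℂ V] [AddCommGroup W] [Module ℂ W] [FiniteDimensional ℂ W]
    (ρ : Representation ℂ G V) (σ : Representation ℂ G W) [ρ.IsIrreducible] [σ.IsIrreducible]
    (h : ρ.character = σ.character) : Nonempty (σ.Equiv ρ) := by
  have : Invertible (Nat.card G : ℂ) := invertibleOfNonzero (Nat.cast_ne_zero.2 Nat.card_pos.ne')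
  by_contra hne
  have h1 := Representation.char_orthonormal ρ σ
  have h2 := Representation.char_orthonormal ρ ρ
  rw [if_neg hne, ← h] at h1
  rw [if_pos ⟨Representation.Equiv.refl ρ⟩, h1] at h2
  exact zero_ne_one h2

/-- The diagrams with `n` cells. -/
def shapeSet (n : ℕ) : Finset YoungDiagram := (FA.YoungHook.Summary.sum_sq_tableaux n).choose

lemma mem_shapeSet {μ : YoungDiagram} : μ ∈ shapeSet n ↔ μ.card = n :=
  (FA.YoungHook.Summary.sum_sq_tableaux n).choose_spec.1 μ

lemma sum_sq_shapeSet : ∑ μ ∈ shapeSet n, Nat.card (StandardTableau μ) ^ 2 = n.factorial :=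
  (FA.YoungHook.Summary.sum_sq_tableaux n).choose_spec.2

lemma card_std {μ : YoungDiagram} (hμ : μ.card = n) :
    Nat.card {t : Filling n μ // IsStd t} = Nat.card (StandardTableau μ) :=
  Nat.card_congr (FA.Schensted.Summary.tableauEquiv μ n hμ)

/-- The character of a Specht module. -/
def spechtChar (n : ℕ) (μ : YoungDiagram) : Equiv.Perm (Fin n) → ℂ :=
  (spechtRep (n := n) μ).character

lemma spechtChar_mem {μ : YoungDiagram} (hμ : μ.card = n) :
    spechtChar n μ ∈ FA.CharacterTheory.irr (Equiv.Perm (Fin n)) :=
  haveI := isIrreducible_specht hμ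
  FA.CharacterTheory.character_mem_irr _

lemma spechtChar_injOn : Set.InjOn (spechtChar n) (shapeSet n) := by
  intro μ hμ ν hν h
  have := isIrreducible_specht (mem_shapeSet.1 hμ)
  have := isIrreducible_specht (mem_shapeSet.1 hν)
  obtain ⟨φ⟩ := nonempty_equiv_of_char_eq _ _ h
  exact (eq_of_equiv (mem_shapeSet.1 hν) (mem_shapeSet.1 hμ) φ).symm

/-- The two facts squeezed out of the sums of squares. -/
lemma classify :
    (∀ μ ∈ shapeSet n,
      Module.finrank ℂ (specht n μ).toSubmodule = Nat.card (StandardTableau μ)) ∧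
      FA.CharacterTheory.irr (Equiv.Perm (Fin n)) = (shapeSet n).image (spechtChar n) := by
  choose! d hd0 hd using fun χ (hχ : χ ∈ FA.CharacterTheory.irr (Equiv.Perm (Fin n))) =>
    FA.CharacterTheory.irr_one hχ
  have htot : ∑ χ ∈ FA.CharacterTheory.irr (Equiv.Perm (Fin n)), d χ ^ 2 = n.factorial := by
    have h := FA.CharacterTheory.sum_sq_degree (G := Equiv.Perm (Fin n))
    rw [sum_congr rfl fun χ hχ => by rw [hd χ hχ], Nat.card_perm, Nat.card_eq_fintype_card,
      Fintype.card_fin] at h
    exact_mod_cast h
  have hsub : (shapeSet n).image (spechtChar n) ⊆ FA.CharacterTheory.irr (Equiv.Perm (Fin n)) :=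
    image_subset_iff.2 fun μ hμ => spechtChar_mem (mem_shapeSet.1 hμ)
  have hdim : ∀ μ ∈ shapeSet n, d (spechtChar n μ) = Module.finrank ℂ (specht n μ).toSubmodule := by
    intro μ hμ
    have h1 : spechtChar n μ 1 = (Module.finrank ℂ (specht n μ).toSubmodule : ℂ) :=
      Representation.char_one _
    rw [hd _ (spechtChar_mem (mem_shapeSet.1 hμ))] at h1
    exact_mod_cast h1
  have hle : ∀ μ ∈ shapeSet n, Nat.card (StandardTableau μ) ^ 2 ≤
      Module.finrank ℂ (specht n μ).toSubmodule ^ 2 := fun μ hμ => by
    rw [← card_std (mem_shapeSet.1 hμ)]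
    exact Nat.pow_le_pow_left card_std_le_finrank 2
  have hsum : ∑ χ ∈ (shapeSet n).image (spechtChar n), d χ ^ 2 =
      ∑ μ ∈ shapeSet n, Module.finrank ℂ (specht n μ).toSubmodule ^ 2 := by
    rw [sum_image spechtChar_injOn]
    exact sum_congr rfl fun μ hμ => by rw [hdim μ hμ]
  have hA := sum_le_sum hle
  have hB := sum_le_sum_of_subset (f := fun χ => d χ ^ 2) hsub
  rw [sum_sq_shapeSet] at hA
  rw [htot, hsum] at hB
  refine ⟨fun μ hμ => ?_, ?_⟩
  · have h := (sum_eq_sum_iff_of_le hle).1 (by rw [sum_sq_shapeSet]; omega) μ hμ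
    exact (Nat.pow_left_injective two_ne_zero h).symm
  · refine (Subset.antisymm hsub fun χ hχ => ?_).symm
    by_contra hno
    have hlt := sum_lt_sum_of_subset (f := fun χ => d χ ^ 2) hsub hχ hno
      (pow_pos (Nat.pos_of_ne_zero (hd0 χ hχ)) 2) fun j _ _ => Nat.zero_le _
    rw [htot, hsum] at hlt
    omega

theorem finrank_specht {μ : YoungDiagram} (hμ : μ.card = n) :
    Module.finrank ℂ (specht n μ).toSubmodule = Nat.card (StandardTableau μ) :=
  classify.1 μ (mem_shapeSet.2 hμ)

/-- **Completeness.** -/
theorem exists_equiv_specht {V : Type*} [AddCommGroup V] [Module ℂ V] [FiniteDimensional ℂ V]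
    (σ : Representation ℂ (Equiv.Perm (Fin n)) V) [σ.IsIrreducible] :
    ∃ μ : YoungDiagram, μ.card = n ∧ Nonempty (σ.Equiv (spechtRep (n := n) μ)) := by
  have h := FA.CharacterTheory.character_mem_irr σ
  rw [classify.2, mem_image] at h
  obtain ⟨μ, hμ, h'⟩ := h
  have := isIrreducible_specht (mem_shapeSet.1 hμ)
  exact ⟨μ, mem_shapeSet.1 hμ, nonempty_equiv_of_char_eq _ _ h'⟩

theorem card_irr_perm :
    (FA.CharacterTheory.irr (Equiv.Perm (Fin n))).card =
      Nat.card {μ : YoungDiagram // μ.card = n} := by
  rw [classify.2, card_image_of_injOn spechtChar_injOn, ← Nat.card_eq_finsetCard]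
  exact Nat.card_congr (Equiv.subtypeEquivRight fun μ => mem_shapeSet)

/-- Conjugacy classes of permutations are the partitions. -/
theorem card_conjClasses_perm (n : ℕ) :
    Nat.card (ConjClasses (Equiv.Perm (Fin n))) = Nat.card (Nat.Partition n) := by
  let f : ConjClasses (Equiv.Perm (Fin n)) → Nat.Partition (Fintype.card (Fin n)) :=
    Quotient.lift Equiv.Perm.partition fun a b h => Equiv.Perm.partition_eq_of_isConj.1 h
  have hf : Function.Bijective f := by
    constructor
    · intro a b h
      induction a using Quotient.inductionOn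
      induction b using Quotient.inductionOn
      exact Quotient.sound (Equiv.Perm.partition_eq_of_isConj.2 h)
    · intro p
      let big := p.parts.filter fun k => 2 ≤ k
      obtain ⟨σ, hσ⟩ : ∃ σ : Equiv.Perm (Fin n), σ.cycleType = big := by
        rw [Equiv.Perm.exists_with_cycleType_iff]
        refine ⟨?_, fun a ha => (Multiset.mem_filter.1 ha).2⟩
        refine le_of_le_of_eq ?_ p.parts_sum
        conv_rhs => rw [← Multiset.filter_add_not (fun k => 2 ≤ k) p.parts]
        rw [Multiset.sum_add]
        exact Nat.le_add_right _ _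
      refine ⟨ConjClasses.mk σ, ?_⟩
      show σ.partition = p
      apply Nat.Partition.ext
      rw [Equiv.Perm.parts_partition, hσ, ← Equiv.Perm.sum_cycleType, hσ]
      have hsmall : ∀ a ∈ p.parts.filter (fun k => ¬ 2 ≤ k), a = 1 := by
        intro a ha
        obtain ⟨h1, h2⟩ := Multiset.mem_filter.1 ha
        have := p.parts_pos h1
        omega
      have hrep := Multiset.eq_replicate_card.2 hsmall
      have hsum := congrArg Multiset.sum (Multiset.filter_add_not (fun k => 2 ≤ k) p.parts)
      rw [Multiset.sum_add, hrep, Multiset.sum_replicate, smul_eq_mul, mul_one, p.parts_sum] at hsum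
      conv_rhs => rw [← Multiset.filter_add_not (fun k => 2 ≤ k) p.parts, hrep]
      congr 2
      have : big.sum = (p.parts.filter fun k => 2 ≤ k).sum := rfl
      omega
  rw [Nat.card_eq_of_bijective f hf, Fintype.card_fin]

end FA.Specht
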