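import Fermat.Agent.Specht.Tabloid

/-!
# Specht modules

Inside the functions on row maps, where permutations act by moving the letters, the Specht module of
a shape is spanned by its polytabloids. It is irreducible, and the shape can be read off from it
(James).
-/

set_option autoImplicit false

noncomputable section

namespace FA.Specht

open Finset
open scoped Classical ComplexConjugate

variable (n : ℕ)

/-- Functions on row maps. -/
abbrev RowFun := (Fin n → Fin n) → ℂ

/-- Permutations act by moving the letters. -/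
def perm : Representation ℂ (Equiv.Perm (Fin n)) (RowFun n) where
  toFun σ := LinearMap.funLeft ℂ ℂ fun r => r ∘ σ
  map_one' := rfl
  map_mul' _ _ := rfl

variable {n}

lemma perm_apply (σ : Equiv.Perm (Fin n)) (f : RowFun n) (r : Fin n → Fin n) :
    perm n σ f r = f (r ∘ σ) := rfl

lemma perm_mul_apply (σ τ : Equiv.Perm (Fin n)) (f : RowFun n) :
    perm n (σ * τ) f = perm n σ (perm n τ f) := rfl

/-- The indicator of a row map. -/
def delta (r : Fin n → Fin n) : RowFun n := fun r' => if r' = r then 1 else 0

lemma perm_delta (σ : Equiv.Perm (Fin n)) (r : Fin n → Fin n) :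
    perm n σ (delta r) = delta (r ∘ ⇑σ⁻¹) := by
  funext r'
  simp only [perm_apply, delta]
  refine if_congr ⟨fun h => ?_, fun h => ?_⟩ rfl rfl
  · rw [← h]
    funext x
    simp
  · rw [h]
    funext x
    simp

variable {μ : YoungDiagram} (t : Filling n μ)

/-- The column antisymmetriser. -/
def kappa : RowFun n →ₗ[ℂ] RowFun n :=
  ∑ π ∈ colGroup t, ((Equiv.Perm.sign π : ℤ) : ℂ) • perm n π

lemma kappa_apply (v : RowFun n) :
    kappa t v = ∑ π ∈ colGroup t, ((Equiv.Perm.sign π : ℤ) : ℂ) • perm n π v := by
  simp [kappa, LinearMap.sum_apply]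

/-- The polytabloid of a tableau. -/
def polytabloid : RowFun n := kappa t (delta (rowMap t))

lemma polytabloid_apply (r : Fin n → Fin n) :
    polytabloid t r = ∑ π ∈ colGroup t,
      if r ∘ π = rowMap t then ((Equiv.Perm.sign π : ℤ) : ℂ) else 0 := by
  rw [polytabloid, kappa_apply, Finset.sum_apply]
  refine sum_congr rfl fun π _ => ?_
  rw [Pi.smul_apply, perm_apply, delta, smul_eq_mul, mul_ite, mul_one, mul_zero]

lemma polytabloid_self : polytabloid t (rowMap t) = 1 := by
  rw [polytabloid_apply, sum_eq_single_of_mem 1 (one_mem_colGroup t)]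
  · rw [if_pos (by funext x; simp)]
    simp
  · exact fun π hπ hne => if_neg fun h => hne (eq_one_of_rowMap_comp t hπ h)

lemma conj_polytabloid (r : Fin n → Fin n) : conj (polytabloid t r) = polytabloid t r := by
  rw [polytabloid_apply, map_sum]
  refine sum_congr rfl fun π _ => ?_
  split_ifs <;> simp

lemma kappa_trans (σ : Equiv.Perm (Fin n)) (v : RowFun n) :
    kappa (t.trans σ) (perm n σ v) = perm n σ (kappa t v) := by
  rw [kappa_apply, kappa_apply, map_sum]
  refine sum_bij' (fun π _ => σ⁻¹ * π * σ) (fun π _ => σ * π * σ⁻¹) (fun π hπ => ?_)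
    (fun π hπ => (colGroup_trans t σ π).2 hπ) (fun π _ => by group) (fun π _ => by group)
    fun π _ => ?_
  · rw [← colGroup_trans t σ]
    convert hπ using 1
    group
  · rw [map_smul, ← perm_mul_apply, ← perm_mul_apply,
      show σ * (σ⁻¹ * π * σ) = π * σ by group]
    congr 2
    simp only [map_mul, map_inv, Int.units_inv_eq_self, mul_comm (Equiv.Perm.sign σ),
      mul_assoc, Int.units_mul_self, mul_one]

lemma perm_polytabloid (σ : Equiv.Perm (Fin n)) :
    perm n σ (polytabloid t) = polytabloid (t.trans σ) := by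
  rw [polytabloid, polytabloid, ← kappa_trans, perm_delta, rowMap_trans]

/-- The column antisymmetriser absorbs column permutations up to sign. -/
lemma kappa_perm {σ : Equiv.Perm (Fin n)} (hσ : σ ∈ colGroup t) (v : RowFun n) :
    kappa t (perm n σ v) = ((Equiv.Perm.sign σ : ℤ) : ℂ) • kappa t v := by
  rw [kappa_apply, kappa_apply, smul_sum]
  refine sum_bij' (fun π _ => π * σ) (fun π _ => π * σ⁻¹) (fun π hπ => mul_mem_colGroup t hπ hσ)
    (fun π hπ => mul_mem_colGroup t hπ (inv_mem_colGroup t hσ)) (fun π _ => by group)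
    (fun π _ => by group) fun π _ => ?_
  rw [perm_mul_apply, smul_smul]
  congr 1
  rcases Int.units_eq_one_or (Equiv.Perm.sign σ) with h | h <;> simp [h, map_mul]

lemma perm_kappa {σ : Equiv.Perm (Fin n)} (hσ : σ ∈ colGroup t) (v : RowFun n) :
    perm n σ (kappa t v) = ((Equiv.Perm.sign σ : ℤ) : ℂ) • kappa t v := by
  rw [kappa_apply, smul_sum, map_sum]
  refine sum_bij' (fun π _ => σ * π) (fun π _ => σ⁻¹ * π) (fun π hπ => mul_mem_colGroup t hσ hπ)
    (fun π hπ => mul_mem_colGroup t (inv_mem_colGroup t hσ) hπ) (fun π _ => by group)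
    (fun π _ => by group) fun π _ => ?_
  rw [map_smul, ← perm_mul_apply, smul_smul]
  congr 1
  rcases Int.units_eq_one_or (Equiv.Perm.sign σ) with h | h <;> simp [h, map_mul]

/-- A clash kills the indicator. -/
lemma kappa_eq_zero {r : Fin n → Fin n} (h : Clash t r) : kappa t (delta r) = 0 := by
  obtain ⟨x, y, hne, hr, hc⟩ := h
  have hmem : Equiv.swap x y ∈ colGroup t := by
    rw [mem_colGroup]
    intro z
    rcases eq_or_ne z x with rfl | hzx
    · rw [Equiv.swap_apply_left, hc]
    rcases eq_or_ne z y with rfl | hzy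
    · rw [Equiv.swap_apply_right, hc]
    rw [Equiv.swap_apply_of_ne_of_ne hzx hzy]
  have hfix : perm n (Equiv.swap x y) (delta r) = delta r := by
    rw [perm_delta, Equiv.swap_inv]
    congr 1
    funext z
    simp only [Function.comp_apply, Equiv.swap_apply_def]
    split_ifs with h1 h2 <;> simp_all
  have := kappa_perm t hmem (delta r)
  rw [hfix, Equiv.Perm.sign_swap hne] at this
  funext r'
  have h2 := congrFun this r'
  simp only [Units.val_neg, Units.val_one, Int.cast_neg, Int.cast_one, neg_smul, one_smul,
    Pi.neg_apply] at h2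
  simp only [Pi.zero_apply]
  linear_combination h2 / 2

/-- Tabloids of the same shape are sent to multiples of the polytabloid. -/
lemma kappa_delta_mem (s : Filling n μ) :
    kappa t (delta (rowMap s)) ∈ ℂ ∙ polytabloid t := by
  by_cases h : Clash t (rowMap s)
  · rw [kappa_eq_zero t h]
    exact Submodule.zero_mem _
  · obtain ⟨π, hπ, hr⟩ := exists_colGroup h fun k => card_rowMap_lt s k
    have e : delta (rowMap s) = perm n π⁻¹ (delta (rowMap t)) := by
      rw [perm_delta, inv_inv, hr]
    rw [e, kappa_perm t (inv_mem_colGroup t hπ)]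
    exact Submodule.smul_mem _ _ (Submodule.mem_span_singleton_self _)

/-- Dominance of shapes. -/
lemma rowsBelow_le_of_kappa_ne_zero {ν : YoungDiagram} (s : Filling n ν)
    (h : kappa t (delta (rowMap s)) ≠ 0) (k : ℕ) : rowsBelow ν k ≤ rowsBelow μ k := by
  rw [← card_rowMap_lt s k]
  exact card_lt_le (fun hc => h (kappa_eq_zero t hc)) k

lemma polytabloid_eq_sum (s : Filling n μ) :
    polytabloid s = ∑ π ∈ colGroup s, ((Equiv.Perm.sign π : ℤ) : ℂ) • delta (rowMap (s.trans π)) := by
  rw [polytabloid, kappa_apply]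
  simp only [perm_delta, rowMap_trans]

variable (n μ) in
/-- The Specht module of the shape `μ`. -/
def specht : Subrepresentation (perm n) where
  toSubmodule := Submodule.span ℂ (Set.range fun t : Filling n μ => polytabloid t)
  apply_mem_toSubmodule σ v hv := by
    induction hv using Submodule.span_induction with
    | mem x hx =>
      obtain ⟨t, rfl⟩ := hx
      exact Submodule.subset_span ⟨t.trans σ, (perm_polytabloid t σ).symm⟩
    | zero => simp
    | add x y _ _ hx hy => rw [map_add]; exact Submodule.add_mem _ hx hy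
    | smul c x _ hx => rw [map_smul]; exact Submodule.smul_mem _ c hx

lemma polytabloid_mem : polytabloid t ∈ (specht n μ).toSubmodule :=
  Submodule.subset_span ⟨t, rfl⟩

lemma conj_mem {v : RowFun n} (hv : v ∈ (specht n μ).toSubmodule) :
    (fun r => conj (v r)) ∈ (specht n μ).toSubmodule := by
  induction hv using Submodule.span_induction with
  | mem x hx =>
    obtain ⟨t, rfl⟩ := hx
    simp only [conj_polytabloid]
    exact polytabloid_mem t
  | zero => simp only [Pi.zero_apply, map_zero]; exact Submodule.zero_mem _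
  | add x y _ _ hx hy =>
    simp only [Pi.add_apply, map_add]
    exact Submodule.add_mem _ hx hy
  | smul c x _ hx =>
    simp only [Pi.smul_apply, smul_eq_mul, map_mul]
    exact Submodule.smul_mem _ (conj c) hx

/-- The bilinear pairing. -/
def dot (v w : RowFun n) : ℂ := ∑ r, v r * w r

lemma kappa_value (v : RowFun n) : kappa t v (rowMap t) = dot v (polytabloid t) := by
  simp only [dot, polytabloid_apply, mul_sum, kappa_apply, Finset.sum_apply, Pi.smul_apply,
    perm_apply, smul_eq_mul]
  rw [sum_comm]
  refine sum_bij' (fun π _ => π⁻¹) (fun π _ => π⁻¹) (fun π hπ => inv_mem_colGroup t hπ)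
    (fun π hπ => inv_mem_colGroup t hπ) (fun π _ => inv_inv π) (fun π _ => inv_inv π) fun π _ => ?_
  rw [sum_eq_single (rowMap t ∘ π)]
  · rw [if_pos (by funext x; simp), map_inv, Int.units_inv_eq_self, mul_comm]
  · intro r _ hr
    rw [if_neg (fun h => hr ?_), mul_zero]
    rw [← h]
    funext x
    simp
  · simp

/-- The key identity of James. -/
lemma kappa_eq_dot_smul {v : RowFun n} (hv : v ∈ (specht n μ).toSubmodule) :
    kappa t v = dot v (polytabloid t) • polytabloid t := by
  have hmem : kappa t v ∈ ℂ ∙ polytabloid t := by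
    have hle : (specht n μ).toSubmodule ≤ Submodule.comap (kappa t) (ℂ ∙ polytabloid t) := by
      refine Submodule.span_le.2 ?_
      rintro _ ⟨s, rfl⟩
      show kappa t (polytabloid s) ∈ ℂ ∙ polytabloid t
      rw [polytabloid_eq_sum s, map_sum]
      refine Submodule.sum_mem _ fun π _ => ?_
      rw [map_smul]
      exact Submodule.smul_mem _ _ (kappa_delta_mem t _)
    exact hle hv
  obtain ⟨a, ha⟩ := Submodule.mem_span_singleton.1 hmem
  rw [← kappa_value, ← ha, Pi.smul_apply, polytabloid_self, smul_eq_mul, mul_one]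

lemma dot_conj_ne_zero {v : RowFun n} (hv : v ≠ 0) : dot v (fun r => conj (v r)) ≠ 0 := by
  simp only [dot, Complex.mul_conj, ← Complex.ofReal_sum, Ne, Complex.ofReal_eq_zero]
  intro h
  refine hv (funext fun r => ?_)
  have := (sum_eq_zero_iff_of_nonneg fun r _ => Complex.normSq_nonneg (v r)).1 h r (mem_univ r)
  exact Complex.normSq_eq_zero.1 this

lemma eq_zero_of_dot {v : RowFun n} (hv : v ∈ (specht n μ).toSubmodule)
    (h : ∀ s : Filling n μ, dot v (polytabloid s) = 0) : v = 0 := by
  by_contra hne
  refine dot_conj_ne_zero hne ?_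
  have hlin : ∀ w ∈ (specht n μ).toSubmodule, dot v w = 0 := by
    intro w hw
    induction hw using Submodule.span_induction with
    | mem x hx =>
      obtain ⟨s, rfl⟩ := hx
      exact h s
    | zero => simp [dot]
    | add x y _ _ hx hy =>
      simp only [dot, Pi.add_apply, mul_add, sum_add_distrib] at hx hy ⊢
      rw [hx, hy, add_zero]
    | smul c x _ hx =>
      simp only [dot, Pi.smul_apply, smul_eq_mul, mul_left_comm (v _) c, ← mul_sum] at hx ⊢
      rw [hx, mul_zero]
  exact hlin _ (conj_mem hv)

/-- A nonzero invariant subspace of the Specht module is everything. -/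
lemma specht_le {U : Submodule ℂ (RowFun n)} (hU : ∀ σ, ∀ v ∈ U, perm n σ v ∈ U)
    (hle : U ≤ (specht n μ).toSubmodule) (hne : U ≠ ⊥) : (specht n μ).toSubmodule ≤ U := by
  obtain ⟨v, hvU, hv⟩ := Submodule.exists_mem_ne_zero_of_ne_bot hne
  obtain ⟨t, ht⟩ : ∃ t : Filling n μ, dot v (polytabloid t) ≠ 0 := by
    by_contra h
    push Not at h
    exact hv (eq_zero_of_dot (hle hvU) h)
  have hk : kappa t v ∈ U := by
    rw [kappa_apply]
    exact U.sum_mem fun π _ => U.smul_mem _ (hU π v hvU)
  rw [kappa_eq_dot_smul t (hle hvU)] at hk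
  have hte : polytabloid t ∈ U := by
    have := U.smul_mem (dot v (polytabloid t))⁻¹ hk
    rwa [smul_smul, inv_mul_cancel₀ ht, one_smul] at this
  refine Submodule.span_le.2 ?_
  rintro _ ⟨s, rfl⟩
  have := hU (t.symm.trans s) _ hte
  rw [perm_polytabloid, ← Equiv.trans_assoc, Equiv.self_trans_symm, Equiv.refl_trans] at this
  exact this

lemma exists_filling (hμ : μ.card = n) : Nonempty (Filling n μ) :=
  ⟨Fintype.equivOfCardEq (by simpa using hμ)⟩

variable (μ) in
/-- The representation on the Specht module. -/
abbrev spechtRep : Representation ℂ (Equiv.Perm (Fin n)) (specht n μ).toSubmodule :=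
  (specht n μ).toRepresentation

lemma spechtRep_val (σ : Equiv.Perm (Fin n)) (v : (specht n μ).toSubmodule) :
    (spechtRep μ σ v : RowFun n) = perm n σ v := rfl

/-- **Specht modules are irreducible.** -/
theorem isIrreducible_specht (hμ : μ.card = n) : (spechtRep (n := n) μ).IsIrreducible := by
  obtain ⟨t⟩ := exists_filling hμ
  have : Nontrivial (Subrepresentation (spechtRep (n := n) μ)) := ⟨⊥, ⊤, fun h => by
    have h1 : (⟨polytabloid t, polytabloid_mem t⟩ : (specht n μ).toSubmodule) ∈
        (⊥ : Subrepresentation (spechtRep (n := n) μ)) := h ▸ trivial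
    have h2 : (⟨polytabloid t, polytabloid_mem t⟩ : (specht n μ).toSubmodule) = 0 := h1
    have : polytabloid t (rowMap t) = 0 := congrFun (congrArg Subtype.val h2) (rowMap t)
    rw [polytabloid_self] at this
    exact one_ne_zero this⟩
  refine ⟨fun U => ?_⟩
  by_cases hU : U.toSubmodule = ⊥
  · exact Or.inl (Subrepresentation.toSubmodule_injective hU)
  right
  refine Subrepresentation.toSubmodule_injective (eq_top_iff.2 fun v _ => ?_)
  have hfull := specht_le (μ := μ) (U := U.toSubmodule.map (specht n μ).toSubmodule.subtype)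
    (fun σ w hw => by
      obtain ⟨x, hx, rfl⟩ := Submodule.mem_map.1 hw
      exact Submodule.mem_map.2 ⟨spechtRep μ σ x, U.apply_mem_toSubmodule σ hx, rfl⟩)
    (Submodule.map_subtype_le _ _)
    (fun h => hU (Submodule.map_injective_of_injective Subtype.val_injective
      (h.trans (Submodule.map_bot _).symm)))
  obtain ⟨x, hx, hxv⟩ := Submodule.mem_map.1 (hfull v.2)
  exact (Subtype.ext hxv : x = v) ▸ hx

/-- An equivariant embedding of one Specht module into another one gives dominance. -/
lemma rowsBelow_le_of_equiv {ν : YoungDiagram} (hμ : μ.card = n)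
    (φ : (spechtRep (n := n) μ).Equiv (spechtRep (n := n) ν)) (k : ℕ) :
    rowsBelow ν k ≤ rowsBelow μ k := by
  obtain ⟨t⟩ := exists_filling hμ
  let x : (specht n μ).toSubmodule := ⟨polytabloid t, polytabloid_mem t⟩
  let kmap : ∀ {ρ : YoungDiagram}, (specht n ρ).toSubmodule → (specht n ρ).toSubmodule :=
    fun {ρ} y => ∑ π ∈ colGroup t, ((Equiv.Perm.sign π : ℤ) : ℂ) • spechtRep ρ π y
  have hval : ∀ {ρ : YoungDiagram} (y : (specht n ρ).toSubmodule),
      (kmap y : RowFun n) = kappa t y := by
    intro ρ y
    simp only [kmap, kappa_apply, Submodule.coe_sum, Submodule.coe_smul, spechtRep_val]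
  have hcomm : φ (kmap x) = kmap (φ x) := by
    simp only [kmap, map_sum, map_smul]
    exact sum_congr rfl fun π _ => congrArg _
      (Representation.IntertwiningMap.isIntertwining _ _ φ.toIntertwiningMap π x)
  have hx : kmap x ≠ 0 := by
    intro h
    have h1 := congrArg Subtype.val h
    rw [hval, kappa_eq_dot_smul t (polytabloid_mem t)] at h1
    have h2 := congrFun h1 (rowMap t)
    rw [Pi.smul_apply, polytabloid_self, smul_eq_mul, mul_one] at h2
    have h3 := dot_conj_ne_zero (v := polytabloid t) fun e => by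
      have := congrFun e (rowMap t)
      rw [polytabloid_self] at this
      exact one_ne_zero this
    simp only [conj_polytabloid] at h3
    exact h3 h2
  obtain ⟨s, hs⟩ : ∃ s : Filling n ν, kappa t (delta (rowMap s)) ≠ 0 := by
    by_contra hno
    push Not at hno
    have hzero : ∀ w ∈ (specht n ν).toSubmodule, kappa t w = 0 := by
      intro w hw
      have : (specht n ν).toSubmodule ≤ LinearMap.ker (kappa t) := by
        refine Submodule.span_le.2 ?_
        rintro _ ⟨s, rfl⟩
        show kappa t (polytabloid s) = 0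
        rw [polytabloid_eq_sum, map_sum]
        exact sum_eq_zero fun π _ => by rw [map_smul, hno, smul_zero]
      exact this hw
    have h0 : kmap (φ x) = 0 := Subtype.ext ((hval _).trans (hzero _ (φ x).2))
    rw [← hcomm] at h0
    exact hx ((map_eq_zero_iff φ φ.toLinearEquiv.injective).1 h0)
  exact rowsBelow_le_of_kappa_ne_zero t s hs k

/-- **Different shapes give different Specht modules.** -/
theorem eq_of_equiv {ν : YoungDiagram} (hμ : μ.card = n) (hν : ν.card = n)
    (φ : (spechtRep (n := n) μ).Equiv (spechtRep (n := n) ν)) : μ = ν :=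
  eq_of_rowsBelow_eq fun k =>
    le_antisymm (rowsBelow_le_of_equiv hν φ.symm k) (rowsBelow_le_of_equiv hμ φ k)

/-- Standard polytabloids are independent. -/
lemma linearIndependent_std :
    LinearIndependent ℂ fun T : {t : Filling n μ // IsStd t} => polytabloid T.1 := by
  rw [Fintype.linearIndependent_iff]
  intro g hg
  by_contra h
  push Not at h
  obtain ⟨T₀, hT₀⟩ := h
  obtain ⟨T, hT, hmax⟩ := exists_max_image (univ.filter fun S => g S ≠ 0)
    (fun S : {t : Filling n μ // IsStd t} => toColex (rowMap S.1))
    ⟨T₀, mem_filter.2 ⟨mem_univ _, hT₀⟩⟩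
  refine (mem_filter.1 hT).2 ?_
  have h1 := congrFun hg (rowMap T.1)
  simp only [Finset.sum_apply, Pi.smul_apply, smul_eq_mul, Pi.zero_apply] at h1
  rw [sum_eq_single T] at h1
  · rwa [polytabloid_self, mul_one] at h1
  · intro S _ hne
    by_cases hS : g S = 0
    · rw [hS, zero_mul]
    rw [polytabloid_apply, sum_eq_zero, mul_zero]
    intro π hπ
    rw [if_neg]
    intro hπe
    have e : rowMap T.1 = rowMap S.1 ∘ ⇑π⁻¹ := by
      rw [← hπe]
      funext x
      simp
    by_cases h1 : π⁻¹ = 1
    · rw [h1] at e
      exact hne (Subtype.ext (eq_of_rowMap_eq S.2 T.2 e.symm))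
    · have hlt := colex_lt S.2 (inv_mem_colGroup S.1 hπ) h1
      rw [← e] at hlt
      exact absurd (hmax S (mem_filter.2 ⟨mem_univ _, hS⟩)) (not_le.2 hlt)
  · simp

lemma card_std_le_finrank :
    Nat.card {t : Filling n μ // IsStd t} ≤ Module.finrank ℂ (specht n μ).toSubmodule := by
  let v : {t : Filling n μ // IsStd t} → (specht n μ).toSubmodule :=
    fun T => ⟨polytabloid T.1, polytabloid_mem T.1⟩
  have hv : LinearIndependent ℂ v :=
    LinearIndependent.of_comp (specht n μ).toSubmodule.subtype linearIndependent_std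
  rw [Nat.card_eq_fintype_card]
  exact hv.fintype_card_le_finrank

end FA.Specht
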