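import Mathlib

/-!
# Tableaux, tabloids and column groups

A tableau of shape `μ` on `n` letters is a bijection of the cells with `Fin n`; its tabloid is the
map sending a letter to its row. A row map without a clash in the columns of a tableau of shape `μ`
has at most as many letters in the first `k` rows as `μ`; with equality for every `k` it is a column
permutation of the tabloid.
-/

set_option autoImplicit false

noncomputable section

namespace FA.Specht

open Finset
open scoped Classical

/-- A tableau: a numbering of the cells. -/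
abbrev Filling (n : ℕ) (μ : YoungDiagram) := μ.cells ≃ Fin n

variable {n : ℕ} {μ : YoungDiagram} (t : Filling n μ)

lemma fst_lt_card {μ : YoungDiagram} (c : μ.cells) : c.1.1 < μ.card := by
  refine Nat.lt_of_lt_of_le (Nat.lt_succ_self c.1.1) ?_
  show c.1.1 + 1 ≤ μ.card
  rw [← card_range (c.1.1 + 1)]
  refine card_le_card_of_injOn (fun i => (i, c.1.2)) (fun i hi => ?_) fun a _ b _ h => ?_
  · exact μ.isLowerSet (show (i, c.1.2) ≤ c.1 from
      ⟨Nat.lt_succ_iff.1 (mem_range.1 hi), le_rfl⟩) c.2
  · simpa using h

include t in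
lemma card_eq_of_filling : μ.card = n := by
  have h := Fintype.card_congr t
  simpa using h

/-- The row of a letter. -/
def rowMap (x : Fin n) : Fin n :=
  ⟨(t.symm x).1.1, lt_of_lt_of_eq (fst_lt_card _) (card_eq_of_filling t)⟩

/-- The column of a letter. -/
def colMap (x : Fin n) : ℕ := (t.symm x).1.2

lemma rowMap_colMap_injective {x y : Fin n} (hr : rowMap t x = rowMap t y)
    (hc : colMap t x = colMap t y) : x = y :=
  t.symm.injective (Subtype.ext (Prod.ext (congrArg Fin.val hr) hc))

/-- The column group. -/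
def colGroup : Finset (Equiv.Perm (Fin n)) :=
  univ.filter fun π => ∀ x, colMap t (π x) = colMap t x

lemma mem_colGroup {π : Equiv.Perm (Fin n)} : π ∈ colGroup t ↔ ∀ x, colMap t (π x) = colMap t x := by
  simp [colGroup]

lemma one_mem_colGroup : (1 : Equiv.Perm (Fin n)) ∈ colGroup t := by
  simp [mem_colGroup]

lemma inv_mem_colGroup {π : Equiv.Perm (Fin n)} (h : π ∈ colGroup t) : π⁻¹ ∈ colGroup t := by
  rw [mem_colGroup] at h ⊢
  intro x
  have := h (π⁻¹ x)
  simpa using this.symm

lemma mul_mem_colGroup {π ρ : Equiv.Perm (Fin n)} (h : π ∈ colGroup t) (h' : ρ ∈ colGroup t) :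
    π * ρ ∈ colGroup t := by
  rw [mem_colGroup] at h h' ⊢
  intro x
  rw [Equiv.Perm.mul_apply, h, h']

lemma colGroup_trans (σ : Equiv.Perm (Fin n)) (π : Equiv.Perm (Fin n)) :
    σ * π * σ⁻¹ ∈ colGroup (t.trans σ) ↔ π ∈ colGroup t := by
  simp only [mem_colGroup, colMap, Equiv.symm_trans_apply, Equiv.Perm.mul_apply,
    Equiv.symm_apply_apply]
  exact σ.symm.forall_congr fun {x} => Iff.rfl

lemma rowMap_trans (σ : Equiv.Perm (Fin n)) : rowMap (t.trans σ) = rowMap t ∘ ⇑σ⁻¹ := rfl

lemma eq_one_of_rowMap_comp {π : Equiv.Perm (Fin n)} (hπ : π ∈ colGroup t)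
    (h : rowMap t ∘ π = rowMap t) : π = 1 := by
  ext1 x
  exact rowMap_colMap_injective t (congrFun h x) ((mem_colGroup t).1 hπ x)

/-- Two letters of one column share a row of `r`. -/
def Clash (r : Fin n → Fin n) : Prop := ∃ x y, x ≠ y ∧ r x = r y ∧ colMap t x = colMap t y

/-- The number of cells in the first `k` rows. -/
def rowsBelow (ν : YoungDiagram) (k : ℕ) : ℕ := (ν.cells.filter fun c => c.1 < k).card

lemma card_rowMap_lt (k : ℕ) :
    (univ.filter fun x => (rowMap t x).val < k).card = rowsBelow μ k := by
  refine card_bij (fun x _ => (t.symm x).1) (fun x hx => ?_) (fun a _ b _ h => ?_) fun c hc => ?_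
  · simp only [mem_filter, mem_univ, true_and] at hx
    exact mem_filter.2 ⟨(t.symm x).2, hx⟩
  · exact t.symm.injective (Subtype.ext h)
  · obtain ⟨hc1, hc2⟩ := mem_filter.1 hc
    exact ⟨t ⟨c, hc1⟩, by simp [rowMap, hc2], by simp⟩

lemma card_column_below (ν : YoungDiagram) (j k : ℕ) :
    ((ν.cells.filter fun c => c.1 < k).filter fun c => c.2 = j).card = min k (ν.colLen j) := by
  rw [show ((ν.cells.filter fun c => c.1 < k).filter fun c => c.2 = j) =
    (range (min k (ν.colLen j))).image fun i => (i, j) by
      ext ⟨a, b⟩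
      simp only [mem_filter, mem_image, mem_range, lt_min_iff, Prod.mk.injEq, YoungDiagram.mem_cells,
        YoungDiagram.mem_iff_lt_colLen]
      constructor
      · rintro ⟨⟨h1, h2⟩, rfl⟩
        exact ⟨a, ⟨h2, h1⟩, rfl, rfl⟩
      · rintro ⟨i, ⟨h1, h2⟩, rfl, rfl⟩
        exact ⟨⟨h2, h1⟩, rfl⟩,
    card_image_of_injective _ fun a b h => (Prod.ext_iff.1 h).1, card_range]

lemma card_column (j : ℕ) : (univ.filter fun x => colMap t x = j).card = μ.colLen j := by
  rw [YoungDiagram.colLen_eq_card]
  refine card_bij (fun x _ => (t.symm x).1) (fun x hx => ?_) (fun a _ b _ h => ?_) fun c hc => ?_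
  · simp only [mem_filter, mem_univ, true_and] at hx
    exact YoungDiagram.mem_col_iff.2 ⟨(t.symm x).2, hx⟩
  · exact t.symm.injective (Subtype.ext h)
  · obtain ⟨hc1, hc2⟩ := YoungDiagram.mem_col_iff.1 hc
    exact ⟨t ⟨c, hc1⟩, by simp [colMap, hc2], by simp⟩

section NoClash

variable {t} {r : Fin n → Fin n} (h : ¬ Clash t r)
include h

lemma injOn_column {x y : Fin n} (hr : r x = r y) (hc : colMap t x = colMap t y) : x = y := by
  by_contra hne
  exact h ⟨x, y, hne, hr, hc⟩

lemma fibre_le (j k : ℕ) :
    ((univ.filter fun x => (r x).val < k).filter fun x => colMap t x = j).card ≤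
      min k (μ.colLen j) := by
  refine le_min ?_ ?_
  · refine le_trans ?_ (card_range k).le
    refine card_le_card_of_injOn (t := range k) (fun x => (r x).val) (fun x hx => ?_)
      fun a ha b hb hab => ?_
    · exact mem_range.2 (mem_filter.1 (mem_filter.1 hx).1).2
    · exact injOn_column h (Fin.ext hab)
        ((mem_filter.1 ha).2.trans (mem_filter.1 hb).2.symm)
  · rw [← card_column t j]
    exact card_le_card fun x hx => mem_filter.2 ⟨mem_univ _, (mem_filter.1 hx).2⟩

/-- Dominance. -/
lemma card_lt_le (k : ℕ) : (univ.filter fun x => (r x).val < k).card ≤ rowsBelow μ k := by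
  let J := μ.cells.image Prod.snd
  rw [rowsBelow, card_eq_sum_card_fiberwise (f := colMap t) (t := J)
      (fun x _ => mem_image_of_mem Prod.snd (t.symm x).2),
    card_eq_sum_card_fiberwise (f := Prod.snd) (t := J)
      (fun c hc => mem_image_of_mem Prod.snd (mem_filter.1 hc).1)]
  refine sum_le_sum fun j _ => ?_
  rw [card_column_below]
  exact fibre_le h j k

/-- With the row counts of `μ`, every letter lands inside its column. -/
lemma mem_cells_of_count
    (hcount : ∀ k, (univ.filter fun x => (r x).val < k).card = rowsBelow μ k) (x : Fin n) :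
    ((r x).val, colMap t x) ∈ μ.cells := by
  rw [YoungDiagram.mem_cells, YoungDiagram.mem_iff_lt_colLen]
  let J := μ.cells.image Prod.snd
  set k := μ.colLen (colMap t x) with hk
  have hjJ : colMap t x ∈ J := mem_image_of_mem Prod.snd (t.symm x).2
  have heq : ((univ.filter fun y => (r y).val < k).filter fun y => colMap t y = colMap t x).card =
      min k (μ.colLen (colMap t x)) := by
    refine (sum_eq_sum_iff_of_le fun j _ => fibre_le h j k).1 ?_ _ hjJ
    have h1 := hcount k
    rw [rowsBelow, card_eq_sum_card_fiberwise (f := colMap t) (t := J)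
        (fun y _ => mem_image_of_mem Prod.snd (t.symm y).2),
      card_eq_sum_card_fiberwise (f := Prod.snd) (t := J)
        (fun c hc => mem_image_of_mem Prod.snd (mem_filter.1 hc).1)] at h1
    rw [h1]
    exact sum_congr rfl fun j _ => card_column_below μ j k
  replace heq : ((univ.filter fun y => (r y).val < k).filter
      fun y => colMap t y = colMap t x).card =
        (univ.filter fun y => colMap t y = colMap t x).card := by
    rw [heq, card_column, ← hk, Nat.min_self]
  have hall := eq_of_subset_of_card_le (s := (univ.filter fun y => (r y).val < k).filter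
      fun y => colMap t y = colMap t x) (t := univ.filter fun y => colMap t y = colMap t x)
    (fun y hy => mem_filter.2 ⟨mem_univ _, (mem_filter.1 hy).2⟩) heq.ge
  have hx : x ∈ univ.filter fun y => colMap t y = colMap t x := by simp
  rw [← hall] at hx
  exact (mem_filter.1 (mem_filter.1 hx).1).2

/-- Such a row map is a column permutation of the tabloid. -/
lemma exists_colGroup
    (hcount : ∀ k, (univ.filter fun x => (r x).val < k).card = rowsBelow μ k) :
    ∃ π ∈ colGroup t, r = rowMap t ∘ π := by
  let f : Fin n → Fin n := fun x => t ⟨_, mem_cells_of_count h hcount x⟩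
  have hf : ∀ x, t.symm (f x) = ⟨_, mem_cells_of_count h hcount x⟩ := fun x => t.symm_apply_apply _
  have hinj : Function.Injective f := fun a b hab => by
    have h' := congrArg Subtype.val (t.injective hab)
    simp only [Prod.mk.injEq] at h'
    exact injOn_column h (Fin.ext h'.1) h'.2
  refine ⟨Equiv.ofBijective f (Finite.injective_iff_bijective.1 hinj), ?_, funext fun x => ?_⟩
  · rw [mem_colGroup]
    intro x
    show (t.symm (f x)).1.2 = colMap t x
    rw [hf]
  · apply Fin.ext
    show (r x).val = (t.symm (f x)).1.1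
    rw [hf]

end NoClash

lemma eq_of_rowsBelow_eq {ν : YoungDiagram} (h : ∀ k, rowsBelow μ k = rowsBelow ν k) : μ = ν := by
  have hlen : ∀ (ρ : YoungDiagram) i, rowsBelow ρ (i + 1) = rowsBelow ρ i + ρ.rowLen i := by
    intro ρ i
    rw [YoungDiagram.rowLen_eq_card, rowsBelow, rowsBelow, ← card_union_of_disjoint]
    · congr 1
      ext c
      simp only [mem_filter, mem_union, YoungDiagram.mem_row_iff, YoungDiagram.mem_cells]
      constructor
      · rintro ⟨hc, h'⟩
        rcases Nat.lt_succ_iff_lt_or_eq.1 h' with h' | h'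
        · exact Or.inl ⟨hc, h'⟩
        · exact Or.inr ⟨hc, h'⟩
      · rintro (⟨hc, h'⟩ | ⟨hc, h'⟩)
        · exact ⟨hc, by omega⟩
        · exact ⟨hc, by omega⟩
    · rw [disjoint_left]
      intro c hc hc'
      have := (mem_filter.1 hc).2
      have := (YoungDiagram.mem_row_iff.1 hc').2
      omega
  ext ⟨i, j⟩
  have h1 := hlen μ i
  have h2 := hlen ν i
  rw [h, h] at h1
  simp only [YoungDiagram.mem_cells, YoungDiagram.mem_iff_lt_rowLen]
  omega

/-- A tableau grows along the product order. -/
def IsStd : Prop := StrictMono (t : μ.cells → Fin n)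

variable {t}

lemma col_eq_card (ht : IsStd t) (x : Fin n) :
    colMap t x = (univ.filter fun y => rowMap t y = rowMap t x ∧ y < x).card := by
  rw [← card_range (colMap t x)]
  symm
  refine card_bij (fun y _ => colMap t y) (fun y hy => ?_) (fun a ha b hb h => ?_) fun j hj => ?_
  · simp only [mem_filter, mem_univ, true_and] at hy
    rw [mem_range]
    by_contra hle
    push Not at hle
    have : t.symm x ≤ t.symm y :=
      Subtype.coe_le_coe.1 (show (t.symm x).1 ≤ (t.symm y).1 from
        ⟨le_of_eq (congrArg Fin.val hy.1).symm, hle⟩)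
    have := ht.monotone this
    rw [Equiv.apply_symm_apply, Equiv.apply_symm_apply] at this
    exact absurd this (not_le.2 hy.2)
  · exact rowMap_colMap_injective t
      ((mem_filter.1 ha).2.1.trans (mem_filter.1 hb).2.1.symm) h
  · have hj' : j < (t.symm x).1.2 := mem_range.1 hj
    have hc : ((t.symm x).1.1, j) ∈ μ.cells :=
      μ.isLowerSet (show ((t.symm x).1.1, j) ≤ (t.symm x).1 from ⟨le_rfl, hj'.le⟩) (t.symm x).2
    refine ⟨t ⟨_, hc⟩, mem_filter.2 ⟨mem_univ _, Fin.ext (by simp [rowMap]), ?_⟩, by simp [colMap]⟩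
    conv_rhs => rw [← t.apply_symm_apply x]
    refine ht (Subtype.coe_lt_coe.1 (Prod.lt_iff.2 (Or.inr ⟨le_rfl, ?_⟩)))
    exact hj'

/-- A standard tableau is determined by its tabloid. -/
lemma eq_of_rowMap_eq {s : Filling n μ} (ht : IsStd t) (hs : IsStd s)
    (h : rowMap t = rowMap s) : t = s := by
  have : ∀ x, t.symm x = s.symm x := fun x => by
    refine Subtype.ext (Prod.ext (congrArg Fin.val (congrFun h x)) ?_)
    show colMap t x = colMap s x
    rw [col_eq_card ht, col_eq_card hs, h]
  exact Equiv.symm_bijective.injective (Equiv.ext this)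

/-- A standard tableau leads its column permutations in colexicographic order. -/
lemma colex_lt (ht : IsStd t) {π : Equiv.Perm (Fin n)} (hπ : π ∈ colGroup t) (h1 : π ≠ 1) :
    toColex (rowMap t ∘ π) < toColex (rowMap t) := by
  obtain ⟨x, hx, hmax⟩ : ∃ x, π x ≠ x ∧ ∀ y, π y ≠ y → y ≤ x := by
    have hne : (univ.filter fun y => π y ≠ y).Nonempty := by
      by_contra h
      refine h1 (Equiv.ext fun y => ?_)
      by_contra hy
      exact h ⟨y, mem_filter.2 ⟨mem_univ _, hy⟩⟩
    exact ⟨(univ.filter fun y => π y ≠ y).max' hne, (mem_filter.1 (max'_mem _ hne)).2,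
      fun y hy => le_max' (univ.filter fun z => π z ≠ z) y (mem_filter.2 ⟨mem_univ _, hy⟩)⟩
  refine ⟨x, fun y hy => ?_, ?_⟩
  · have : π y = y := by
      by_contra hne
      exact absurd (hmax y hne) (not_le.2 hy)
    show rowMap t (π y) = rowMap t y
    rw [this]
  · have hlt : π x < x := lt_of_le_of_ne (hmax _ fun e => hx (π.injective e)) hx
    have hc : colMap t (π x) = colMap t x := (mem_colGroup t).1 hπ x
    show (t.symm (π x)).1.1 < (t.symm x).1.1
    by_contra hle
    push Not at hle
    have : t.symm x ≤ t.symm (π x) :=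
      Subtype.coe_le_coe.1 (show (t.symm x).1 ≤ (t.symm (π x)).1 from ⟨hle, le_of_eq hc.symm⟩)
    have := ht.monotone this
    rw [Equiv.apply_symm_apply, Equiv.apply_symm_apply] at this
    exact absurd this (not_le.2 hlt)

end FA.Specht
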